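import Fermat.Agent.RT.Interface
import Fermat.Agent.RT.GammaH.Lattice
import Fermat.Agent.RT.GammaH.Residual
import Fermat.Agent.RT.GammaH.EigenVector
import Fermat.Agent.RT.GammaH.Eigen
import Fermat.Agent.RT.GammaH.Local
import Fermat.Agent.ConductorLevel.Raise

/-!
# Congruent levels from eigenclasses

An eigenclass of level `Γ_H` whose system reduces to the residual one shows that the residual
system occurs at level `Γ₀`.
-/

set_option autoImplicit false

noncomputable section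

namespace Fermat.Agent.RT.Level

open MvPolynomial IsLocalRing ModularFormClass ModularCurve.Period CongruenceSubgroup
open Fermat.Agent.RT.GammaH

variable {O : Type} [CommRing O] [IsDomain O] [IsDiscreteValuationRing O] [Algebra O ℂ]
  {L : ℕ} [NeZero L] {S : Finset ℕ} {abar : ℕ → ResidueField O}

omit [IsDomain O] [IsDiscreteValuationRing O] [NeZero L] in
/-- An eigen homomorphism in all the generators is one for every operator. -/
theorem opC_eq_smul {K : Subgroup (ZMod L)ˣ} (χ : (ZMod L)ˣ → ℂ) (a : ℕ → ℂ) {φ : HomC K}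
    (hdia : ∀ u, diamond L K ℂ u φ = χ u • φ)
    (hT : ∀ (ℓ : ℕ) [Fact ℓ.Prime], ℓ ∉ S → hecke L K ℓ ℂ φ = a ℓ • φ) (x : OpRing O L S) :
    opC O S K x φ =
      aeval (R := O) (Sum.elim χ fun ℓ : {ℓ : ℕ // ℓ.Prime ∧ ℓ ∉ S} => a ℓ.1) x • φ := by
  induction x using MvPolynomial.induction_on with
  | C c =>
    rw [opC_C, Module.algebraMap_end_apply, aeval_C]
  | add p q hp hq => rw [map_add, LinearMap.add_apply, hp, hq, map_add, add_smul]
  | mul_X p i hp =>
    rw [map_mul, Module.End.mul_apply, map_mul, aeval_X, mul_comm, mul_smul]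
    rcases i with u | ℓ
    · rw [opC_inl, hdia, map_smul, hp]
      rfl
    · have : Fact ℓ.1.Prime := ⟨ℓ.2.1⟩
      rw [opC_inr, hT ℓ.1 ℓ.2.2, map_smul, hp]
      rfl

omit [NeZero L] in
/-- A ring map to a field agreeing with the residual system on the generators is the residual
system. -/
theorem red_eq_opRes {F : Type} [Field F] [Algebra (ResidueField O) F]
    (θ : OpRing O L S →ₐ[O] ℂ) (hθ : ∀ x, IsIntegral O (θ x))
    (red : integralClosure O ℂ →+* F)
    (hred : ∀ c : O, red (algebraMap O (integralClosure O ℂ) c) =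
        algebraMap (ResidueField O) F (residue O c))
    (hgen : ∀ (i : OpIdx L S) (z : integralClosure O ℂ), (z : ℂ) = θ (X i) →
      red z = algebraMap (ResidueField O) F (opRes S abar L (X i)))
    (x : OpRing O L S) :
    red ⟨θ x, hθ x⟩ = algebraMap (ResidueField O) F (opRes S abar L x) := by
  let θR : OpRing O L S →ₐ[O] integralClosure O ℂ := θ.codRestrict _ hθ
  refine congrFun (congrArg DFunLike.coe (?_ : red.comp θR.toRingHom =
    (algebraMap (ResidueField O) F).comp (opRes S abar L : OpRing O L S →+* ResidueField O))) x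
  refine MvPolynomial.ringHom_ext (fun c => ?_) fun i => ?_
  · simp only [RingHom.comp_apply, AlgHom.toRingHom_eq_coe, RingHom.coe_coe, ← algebraMap_eq,
      AlgHom.commutes, hred, ResidueField.algebraMap_eq]
  · exact hgen i (θR (X i)) rfl

variable [IsAdicComplete (maximalIdeal O) O] [Finite (ResidueField O)] {p : ℕ} [Fact p.Prime]
  [CharP (ResidueField O) p]

omit [IsAdicComplete (maximalIdeal O) O] [Finite (ResidueField O)] in
/-- A nonzero localised module at level `Γ₀(L)` makes `L` a congruent level. -/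
theorem isCongruentLevel_of_ne_bot (hinj : Function.Injective (algebraMap O ℂ)) (hL : Squarefree L)
    (hS : ∀ v : ℕ, v.Prime → v ∣ L → v ∈ S)
    (hEis : ∃ ℓ : ℕ, ℓ.Prime ∧ ℓ ∉ S ∧ abar ℓ ≠ 1 + (ℓ : ResidueField O))
    {e : OpRing O L S}
    (he : IsLocalizer (resIdeal S abar L) (HomMod O S (⊤ : Subgroup (ZMod L)ˣ) O) e)
    (hne : localPart O e (HomMod O S (⊤ : Subgroup (ZMod L)ˣ) O) ≠ ⊥) :
    IsCongruentLevel S abar L := by
  obtain ⟨θ, hθ⟩ := exists_character (O := O) hne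
  obtain ⟨ℓ, hℓ, hℓS, hEis⟩ := hEis
  obtain ⟨P, hP, hpar⟩ := exists_parabolicOp (K := (⊤ : Subgroup (ZMod L)ˣ)) S abar hL
    (Subgroup.mem_top _) hℓ hℓS (fun h => hℓS (hS ℓ hℓ h)) hEis
  obtain ⟨φ, hφ0, hφpar, hφ⟩ := exists_eigvec hinj he hP (fun x => hpar ℂ x) θ hθ
  have hone : ∀ u, θ (X (Sum.inl u)) = 1 := fun u => by
    refine smul_left_injective ℂ hφ0 (?_ : θ (X (Sum.inl u)) • φ = (1 : ℂ) • φ)
    rw [← hφ, opC_inl, one_smul]
    exact diamond_top ℂ u φ
  let aT : ℕ → ℂ := fun m => if h : m.Prime ∧ m ∉ S then θ (X (Sum.inr ⟨m, h⟩)) else 0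
  have hTa : ∀ (m : ℕ) [Fact m.Prime], m ∉ S →
      hecke L (⊤ : Subgroup (ZMod L)ˣ) m ℂ φ = aT m • φ := fun m _ hmS => by
    simp only [aT]
    rw [dif_pos ⟨Fact.out, hmS⟩, ← hφ, opC_inr]
  obtain ⟨L', g, hg, hL'sq, hcoef, hsq, -, -⟩ := exists_newform_of_eigen (K := ⊤) hL
    (Subgroup.mem_top _) (by
      have h := QuotientGroup.subsingleton_quotient_top (G := (ZMod L)ˣ)
      rw [Nat.card_of_subsingleton (1 : (ZMod L)ˣ ⧸ (⊤ : Subgroup (ZMod L)ˣ))]
      exact odd_one)
    S hS 1 (fun u _ => rfl) aT hφpar hφ0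
    (fun u => (diamond_top ℂ u φ).trans (one_smul ℂ φ).symm) hTa
  have hL'0 : L' ≠ 0 := fun h0 => pow_ne_zero 2 (NeZero.ne L) (Nat.eq_zero_of_zero_dvd (h0 ▸ hL'sq))
  have hL'L : L' ∣ L := by
    refine (Nat.factorization_le_iff_dvd hL'0 (NeZero.ne L)).1 fun v => ?_
    by_cases hv : v.Prime
    · by_cases h0 : v ∣ L'
      · have hvL : v ∣ L := hv.dvd_of_dvd_pow (h0.trans hL'sq)
        have h2 : ¬ v ^ 2 ∣ L' := fun h => by
          obtain ⟨u, -, hu⟩ := (hsq v hv hvL).1 h
          exact hu rfl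
        rw [hv.pow_dvd_iff_le_factorization hL'0] at h2
        have h1 := (hv.dvd_iff_one_le_factorization (NeZero.ne L)).1 hvL
        omega
      · rw [Nat.factorization_eq_zero_of_not_dvd h0]
        exact Nat.zero_le _
    · rw [Nat.factorization_eq_zero_of_not_prime _ hv]
      exact Nat.zero_le _
  obtain ⟨h, hh, hhg⟩ := ConductorLevel.exists_raise hL hL'L hg.1
  obtain ⟨red, hred⟩ := exists_red (O := O) hinj
  let incl : integralClosure ℤ ℂ →+* integralClosure O ℂ :=
    { toFun := fun x => ⟨x.1, x.2.tower_top⟩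
      map_one' := rfl, map_mul' := fun _ _ => rfl, map_zero' := rfl, map_add' := fun _ _ => rfl }
  refine ⟨h, hh, red.comp incl, fun m hm hmS z hz => ?_⟩
  have hmL : ¬ m ∣ L := fun hd => hmS (hS m hm hd)
  have hzθ : ((incl z : integralClosure O ℂ) : ℂ) = θ (X (Sum.inr ⟨m, hm, hmS⟩)) := by
    show (z : ℂ) = _
    rw [hz, hhg m hm hmL, hcoef m hm hmS (ZMod.unitOfCoprime m (hm.coprime_iff_not_dvd.2 hmL))
      (ZMod.coe_unitOfCoprime _ _)]
    simp only [aT]
    rw [dif_pos ⟨hm, hmS⟩, MonoidHom.one_apply, Units.val_one, one_pow, one_mul]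
  rw [RingHom.comp_apply, red_character he θ hθ hred _ hzθ, opRes_inr]

/-- An eigenclass of level `ker ψ` reducing to the residual system makes `L` a congruent
level. -/
theorem isCongruentLevel_of_eigenclass (hinj : Function.Injective (algebraMap O ℂ)) (hp2 : p ≠ 2)
    (hthree : 5 ≤ p ∨ ∃ r : ℕ, r.Prime ∧ r % 3 = 2 ∧ r ∉ S ∧ abar r ≠ 0)
    (hL : Squarefree L) {K : Subgroup (ZMod L)ˣ} (hK : IsPGroup p ((ZMod L)ˣ ⧸ K))
    (hS : ∀ v : ℕ, v.Prime → v ∣ L → v ∈ S)
    (hEis : ∃ ℓ : ℕ, ℓ.Prime ∧ ℓ ∉ S ∧ abar ℓ ≠ 1 + (ℓ : ResidueField O))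
    (χ : (ZMod L)ˣ → ℂ) (a : ℕ → ℂ) {φ : HomC K} (hne : φ ≠ 0)
    (hdia : ∀ u, diamond L K ℂ u φ = χ u • φ)
    (hT : ∀ (ℓ : ℕ) [Fact ℓ.Prime], ℓ ∉ S → hecke L K ℓ ℂ φ = a ℓ • φ)
    {red : integralClosure O ℂ →+* AlgebraicClosure (ResidueField O)}
    (hred : ∀ c : O, red (algebraMap O (integralClosure O ℂ) c) =
        algebraMap (ResidueField O) _ (residue O c))
    (hχ : ∀ u, ∃ z : integralClosure O ℂ, (z : ℂ) = χ u ∧ red z = 1)
    (ha : ∀ ℓ : ℕ, ℓ.Prime → ℓ ∉ S → ∃ z : integralClosure O ℂ,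
      (z : ℂ) = a ℓ ∧ red z = algebraMap (ResidueField O) _ (abar ℓ)) :
    IsCongruentLevel S abar L := by
  classical
  have := Fintype.ofFinite ((ZMod L)ˣ ⧸ K)
  have : CharZero O := (algebraMap O ℂ).charZero
  obtain ⟨e, heH, heH₀, b, hb⟩ := exists_freeData (Δ := (ZMod L)ˣ ⧸ K)
    (ψ := QuotientGroup.mk' K) S abar (K := K) hp2 hthree hK
    (QuotientGroup.mk'_surjective K)
    (fun u => (QuotientGroup.eq_one_iff (N := K) u).symm) hS hEis
  refine isCongruentLevel_of_ne_bot hinj hL hS hEis heH₀ fun h0 => ?_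
  -- the localiser kills everything
  have hr : Module.finrank O (localPart O e (HomMod O S (⊤ : Subgroup (ZMod L)ˣ) O)) = 0 := by
    rw [h0, finrank_bot]
  have hzero : ∀ x : localPart O e (HomMod O S K O), x = 0 := fun x => by
    obtain ⟨c, rfl⟩ := hb.2 x
    have : c = 0 := Finsupp.ext fun iq => absurd iq.1.2 (by omega)
    simp [this]
  set θ := aeval (R := O) (Sum.elim χ fun ℓ : {ℓ : ℕ // ℓ.Prime ∧ ℓ ∉ S} => a ℓ.1)
  have hθe : θ e = 0 := by
    obtain ⟨r, w, ψ, hψ⟩ := exists_int_decomp φ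
    have hsum : φ = ∑ i, w i •
        toHomC (toHomMod ((Int.castAddHom O).comp (ψ i)) : HomMod O S K O) := by
      refine AddMonoidHom.ext fun γ => ?_
      rw [hψ γ, AddMonoidHom.finsetSum_apply]
      refine Finset.sum_congr rfl fun i _ => ?_
      show w i * (ψ i γ : ℂ) = w i * algebraMap O ℂ ((ψ i γ : ℤ) : O)
      rw [map_intCast]
    have h := opC_eq_smul χ a hdia hT e
    have h' : opC O S K e φ = 0 := by
      rw [hsum]
      simp only [map_sum, map_smul, ← toHomC_smul]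
      refine Finset.sum_eq_zero fun i _ => ?_
      have := hzero ⟨_, heH.smul_self_mem (toHomMod ((Int.castAddHom O).comp (ψ i)))⟩
      rw [Subtype.ext_iff] at this
      rw [show e • (toHomMod ((Int.castAddHom O).comp (ψ i)) : HomMod O S K O) = 0 from this,
        map_zero, smul_zero]
    rw [h', eq_comm, smul_eq_zero] at h
    exact h.resolve_right hne
  have hint : ∀ x, IsIntegral O (θ x) := fun x => by
    induction x using MvPolynomial.induction_on with
    | C c => rw [aeval_C]; exact isIntegral_algebraMap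
    | add p q hp hq => rw [map_add]; exact hp.add hq
    | mul_X p i hp =>
      rw [map_mul, aeval_X]
      refine hp.mul ?_
      rcases i with u | ℓ
      · obtain ⟨z, hz, -⟩ := hχ u
        show IsIntegral O (χ u); rw [← hz]; exact z.2
      · obtain ⟨z, hz, -⟩ := ha ℓ.1 ℓ.2.1 ℓ.2.2
        show IsIntegral O (a ℓ.1); rw [← hz]; exact z.2
  have h1 := red_eq_opRes (abar := abar) θ hint red hred (fun i z hz => ?_) e
  · rw [show (⟨θ e, hint e⟩ : integralClosure O ℂ) = 0 from Subtype.ext hθe, map_zero] at h1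
    have h2 := heH.sub_one_mem
    rw [mem_resIdeal, map_sub, map_one, sub_eq_zero] at h2
    rw [h2, map_one] at h1
    exact zero_ne_one h1
  · rw [aeval_X] at hz
    rcases i with u | ℓ
    · obtain ⟨z', hz', hr'⟩ := hχ u
      rw [opRes_inl, map_one, ← hr']
      exact congrArg red (Subtype.ext (hz.trans hz'.symm))
    · obtain ⟨z', hz', hr'⟩ := ha ℓ.1 ℓ.2.1 ℓ.2.2
      rw [opRes_inr, ← hr']
      exact congrArg red (Subtype.ext (hz.trans hz'.symm))

end Fermat.Agent.RT.Level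

end
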