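import Fermat.Agent.RT.Level.Ops
import Fermat.Agent.RT.Level.Congruent
import Fermat.Agent.RT.GammaH.Embed
import Fermat.Agent.RT.GammaH.Complex

/-!
# The Hecke module of a level

For squarefree `L`, a non-Eisenstein residual system and `ψ` onto a `p`-group, `p ≥ 5` or
`p = 3` with a prime `r ≡ 2 (mod 3)` outside `S` where the system does not vanish, the
localised cohomology of `ker ψ` is a Hecke module; it is nonzero if the system occurs at level `L`.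
-/

set_option autoImplicit false

noncomputable section

namespace Fermat.Agent.RT.Level

open MvPolynomial IsLocalRing ModularFormClass ModularCurve.Period CongruenceSubgroup
open Fermat.Agent.RT.GammaH
open scoped ModularForm

variable {O : Type} [CommRing O] [IsDomain O] [IsDiscreteValuationRing O]
  [IsAdicComplete (maximalIdeal O) O] [Finite (ResidueField O)] [CharZero O]
  {p : ℕ} [Fact p.Prime] [CharP (ResidueField O) p]
  {L : ℕ} [NeZero L] {Δ : Type} [CommGroup Δ] [Fintype Δ] {S : Finset ℕ}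
  {abar : ℕ → ResidueField O} {ψ : (ZMod L)ˣ →* Δ} {e : OpRing O L S}

omit [IsAdicComplete (maximalIdeal O) O] [Finite (ResidueField O)] [CharZero O] [Fact p.Prime]
  [Fintype Δ] [NeZero L] in
theorem isPGroup_quotient_ker (hΔ : IsPGroup p Δ) : IsPGroup p ((ZMod L)ˣ ⧸ ψ.ker) :=
  hΔ.of_injective (QuotientGroup.kerLift ψ) (QuotientGroup.kerLift_injective ψ)

omit [CharZero O] in
/-- The clauses on the points of the algebra. -/
theorem exists_eigenData (hp2 : p ≠ 2)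
    (hthree : 5 ≤ p ∨ ∃ r : ℕ, r.Prime ∧ r % 3 = 2 ∧ r ∉ S ∧ abar r ≠ 0) (hL : Squarefree L) (hΔ : IsPGroup p Δ)
    (hψ : Function.Surjective ψ) (hS : ∀ v : ℕ, v.Prime → v ∣ L → v ∈ S)
    (hEis : ∃ ℓ : ℕ, ℓ.Prime ∧ ℓ ∉ S ∧ abar ℓ ≠ 1 + (ℓ : ResidueField O))
    (he : IsLocalizer (resIdeal S abar L) (HomMod O S ψ.ker O) e)
    (θ : opAlg O S ψ e hψ →+* ℂ) :
    ∃ (L' : ℕ) (g : CuspForm (CongruenceSubgroup.Gamma0 L') 2), g.IsNewform ∧ L' ∣ L ^ 2 ∧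
      (∀ (ℓ : ℕ) (hℓ : ℓ.Prime) (hℓS : ℓ ∉ S) (u : (ZMod L)ˣ), (u : ZMod L) = (ℓ : ZMod L) →
        ModularFormClass.qCoeff g ℓ =
          θ (⟨opDia O S ψ e hψ (ψ u), Algebra.subset_adjoin (Or.inl ⟨_, rfl⟩)⟩ ^ halfInvExp Δ *
            ⟨opT O S ψ e ℓ, Algebra.subset_adjoin (Or.inr ⟨ℓ, ⟨hℓ, hℓS⟩, rfl⟩)⟩)) ∧
      (∀ v : ℕ, v.Prime → v ∣ L → (v ^ 2 ∣ L' ↔ ∃ u : (ZMod L)ˣ,
        ((u : ZMod L).cast : ZMod (L / v)) = 1 ∧
          θ ⟨opDia O S ψ e hψ (ψ u), Algebra.subset_adjoin (Or.inl ⟨_, rfl⟩)⟩ ≠ 1)) ∧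
      (∀ v : ℕ, v.Prime → v ∣ L → ¬ v ∣ L' → IsCongruentLevel S abar (L / v)) ∧
      ∃ f : CuspForm (CongruenceSubgroup.Gamma1 L) 2, ModularFormClass.qCoeff f 1 = 1 ∧
        (∀ (γ : CongruenceSubgroup.Gamma0 L) (u : (ZMod L)ˣ),
          CongruenceSubgroup.Gamma0Map L γ = (u : ZMod L) →
            (⇑f) ∣[(2 : ℤ)] (γ : Matrix.SpecialLinearGroup (Fin 2) ℤ) =
              θ ⟨opDia O S ψ e hψ (ψ u), Algebra.subset_adjoin (Or.inl ⟨_, rfl⟩)⟩ • ⇑f) ∧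
        (∀ (ℓ : ℕ) (hℓ : ℓ.Prime) (hℓS : ℓ ∉ S), ModularFormClass.qCoeff f ℓ =
          θ ⟨opT O S ψ e ℓ, Algebra.subset_adjoin (Or.inr ⟨ℓ, ⟨hℓ, hℓS⟩, rfl⟩)⟩) ∧
        ∀ (ℓ : ℕ) (_hℓ : ℓ.Prime) (_hℓS : ℓ ∉ S) (u : (ZMod L)ˣ), (u : ZMod L) = (ℓ : ZMod L) →
          ∀ n : ℕ, ModularFormClass.qCoeff f (n * ℓ) +
              (if ℓ ∣ n then θ ⟨opDia O S ψ e hψ (ψ u), Algebra.subset_adjoin (Or.inl ⟨_, rfl⟩)⟩ * ℓ *
                ModularFormClass.qCoeff f (n / ℓ) else 0) =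
            ModularFormClass.qCoeff f ℓ * ModularFormClass.qCoeff f n := by
  classical
  let : Algebra O ℂ := (θ.comp (algebraMap O (opAlg O S ψ e hψ))).toAlgebra
  have hinj : Function.Injective (algebraMap O ℂ) := by
    rw [RingHom.injective_iff_ker_eq_bot]
    by_contra h0
    have hmax := ((RingHom.ker_isPrime (algebraMap O ℂ)).isMaximal h0)
    have hp0 : (p : O) ∈ maximalIdeal O := by
      rw [← residue_eq_zero_iff, map_natCast]
      exact CharP.cast_eq_zero _ p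
    rw [← eq_maximalIdeal hmax, RingHom.mem_ker, map_natCast, Nat.cast_eq_zero] at hp0
    exact (Fact.out : p.Prime).ne_zero hp0
  let θA : OpRing O L S →ₐ[O] ℂ :=
    { θ.comp (toOpAlg O S ψ e hψ).toRingHom with
      commutes' := fun c => congrArg θ ((toOpAlg O S ψ e hψ).commutes c) }
  have hθ : ∀ a, localAct O e (HomMod O S ψ.ker O) a = 0 → θA a = 0 := fun a ha => by
    show θ (toOpAlg O S ψ e hψ a) = 0
    rw [show toOpAlg O S ψ e hψ a = 0 from Subtype.ext ha, map_zero]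
  have hneg : (-1 : (ZMod L)ˣ) ∈ ψ.ker := neg_one_mem_ker ψ hp2 hΔ
  have hcard : Nat.card ((ZMod L)ˣ ⧸ ψ.ker) = Nat.card Δ :=
    Nat.card_congr (QuotientGroup.quotientKerEquivOfSurjective ψ hψ).toEquiv
  have hodd : Odd (Nat.card ((ZMod L)ˣ ⧸ ψ.ker)) := by
    obtain ⟨n, hn⟩ := hΔ.exists_card_eq
    rw [hcard, hn]
    exact ((Fact.out : p.Prime).odd_of_ne_two hp2).pow
  obtain ⟨ℓ₀, hℓ₀, hℓ₀S, hEis₀⟩ := hEis
  obtain ⟨P, hP, hpar⟩ := exists_parabolicOp (K := ψ.ker) S abar hL hneg hℓ₀ hℓ₀S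
    (fun h => hℓ₀S (hS ℓ₀ hℓ₀ h)) hEis₀
  obtain ⟨φ, hφ0, hφpar, hφ⟩ := exists_eigvec hinj he hP (fun x => hpar ℂ x) θA hθ
  let χ : (ZMod L)ˣ →* ℂˣ := ((θ : opAlg O S ψ e hψ →* ℂ).comp
    (((opDia O S ψ e hψ).comp ψ).codRestrict (opAlg O S ψ e hψ).toSubmonoid
      fun u => Algebra.subset_adjoin (Or.inl ⟨_, rfl⟩))).toHomUnits
  have hχ : ∀ u, (χ u : ℂ) =
      θ ⟨opDia O S ψ e hψ (ψ u), Algebra.subset_adjoin (Or.inl ⟨_, rfl⟩)⟩ := fun u => rfl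
  have hχA : ∀ u, (χ u : ℂ) = θA (X (Sum.inl u)) := fun u => by
    rw [hχ]
    exact congrArg θ (toOpAlg_inl hψ u).symm
  have hχK : ∀ u ∈ ψ.ker, χ u = 1 := fun u hu => Units.ext <| by
    rw [hχ, Units.val_one, ← map_one θ]
    exact congrArg θ (Subtype.ext (by
      rw [MonoidHom.mem_ker.1 hu]
      exact map_one (opDia O S ψ e hψ)))
  let aT : ℕ → ℂ := fun m =>
    if h : m.Prime ∧ m ∉ S then θ ⟨opT O S ψ e m, Algebra.subset_adjoin (Or.inr ⟨m, h, rfl⟩)⟩ else 0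
  have haT : ∀ {m : ℕ} (h : m.Prime ∧ m ∉ S), aT m = θA (X (Sum.inr ⟨m, h⟩)) := fun {m} h => by
    simp only [aT]
    rw [dif_pos h]
    exact congrArg θ (toOpAlg_inr hψ h).symm
  have hdia : ∀ u, diamond L ψ.ker ℂ u φ = (χ u : ℂ) • φ := fun u => by
    rw [hχA, ← hφ, opC_inl]
  have hT : ∀ (ℓ : ℕ) [Fact ℓ.Prime], ℓ ∉ S → hecke L ψ.ker ℓ ℂ φ = aT ℓ • φ := fun ℓ _ hℓS => by
    rw [haT ⟨Fact.out, hℓS⟩, ← hφ, opC_inr]
  obtain ⟨L', g, hg, hdvd, hcoef, hsq, hdesc, f, hf1, hfneb, hfT, hfrec⟩ :=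
    exists_newform_of_eigen (K := ψ.ker) hL hneg hodd S hS χ hχK aT hφpar hφ0 hdia hT
  refine ⟨L', g, hg, hdvd, fun ℓ hℓ hℓS u hu => ?_, fun v hv hvL => ?_, fun v hv hvL hvL' => ?_,
    f, hf1, fun γ u hu => ?_, fun ℓ hℓ hℓS => ?_, fun ℓ hℓ hℓS u hu n => ?_⟩
  · rw [hcoef ℓ hℓ hℓS u hu, map_mul, map_pow, ← hχ, hcard]
    congr 1
    simp only [aT]
    rw [dif_pos ⟨hℓ, hℓS⟩]
  · rw [hsq v hv hvL]
    simp only [ne_eq, ← Units.val_eq_one, hχ]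
  · obtain ⟨φ', hφ'0, hdia', hT'⟩ := hdesc v hv hvL hvL'
    set π := ZMod.unitsMap (Nat.div_dvd_of_dvd hvL) with hπ
    have hπs : Function.Surjective π := ZMod.unitsMap_surjective _
    have : NeZero (L / v) := ⟨(Nat.div_pos (Nat.le_of_dvd (Nat.pos_of_ne_zero (NeZero.ne L)) hvL)
      hv.pos).ne'⟩
    have hK' : IsPGroup p ((ZMod (L / v))ˣ ⧸ ψ.ker.map π) :=
      (isPGroup_quotient_ker (ψ := ψ) hΔ).of_surjective
        (QuotientGroup.map ψ.ker (ψ.ker.map π) π (Subgroup.le_comap_map π ψ.ker)) fun x => by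
          obtain ⟨y, rfl⟩ := QuotientGroup.mk_surjective x
          obtain ⟨z, rfl⟩ := hπs y
          exact ⟨z, rfl⟩
    obtain ⟨red, hred⟩ := exists_red (O := O) hinj
    choose s hs using hπs
    refine isCongruentLevel_of_eigenclass hinj hp2 hthree (hL.squarefree_of_dvd (Nat.div_dvd_of_dvd hvL))
      hK' (fun w hw hwL => hS w hw (hwL.trans (Nat.div_dvd_of_dvd hvL))) ⟨ℓ₀, hℓ₀, hℓ₀S, hEis₀⟩
      (fun u => (χ (s u) : ℂ)) aT hφ'0 (fun u => ?_) hT' hred (fun u => ?_) fun ℓ hℓ hℓS => ?_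
    · have := hdia' (s u)
      rwa [hs] at this
    · refine ⟨⟨(χ (s u) : ℂ), (hχA (s u)).symm ▸ (isIntegral_character θA hθ _ :
        θA (X (Sum.inl (s u))) ∈ integralClosure O ℂ)⟩, rfl, ?_⟩
      rw [red_character he θA hθ hred (X (Sum.inl (s u))) (hχA (s u)), opRes_inl, map_one]
    · refine ⟨⟨aT ℓ, (haT ⟨hℓ, hℓS⟩).symm ▸ (isIntegral_character θA hθ _ :
        θA (X (Sum.inr ⟨ℓ, hℓ, hℓS⟩)) ∈ integralClosure O ℂ)⟩, rfl, ?_⟩
      rw [red_character he θA hθ hred (X (Sum.inr ⟨ℓ, hℓ, hℓS⟩)) (haT ⟨hℓ, hℓS⟩), opRes_inr]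
  · rw [hfneb γ u hu, hχ]
  · rw [hfT ℓ hℓ hℓS]
    simp only [aT]
    rw [dif_pos ⟨hℓ, hℓS⟩]
  · rw [← hχ]
    exact hfrec ℓ hℓ hℓS u hu n

/-- **The Hecke module of a level**, `p` odd. -/
theorem exists_heckeModule' (hp2 : p ≠ 2)
    (hthree : 5 ≤ p ∨ ∃ r : ℕ, r.Prime ∧ r % 3 = 2 ∧ r ∉ S ∧ abar r ≠ 0) (hL : Squarefree L) (hΔ : IsPGroup p Δ)
    (hψ : Function.Surjective ψ) (hS : ∀ v : ℕ, v.Prime → v ∣ L → v ∈ S)
    (hEis : ∃ ℓ : ℕ, ℓ.Prime ∧ ℓ ∉ S ∧ abar ℓ ≠ 1 + (ℓ : ResidueField O)) :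
    ∃ (e : OpRing O L S),
      IsLocalizer (resIdeal S abar L) (HomMod O S (⊤ : Subgroup (ZMod L)ˣ) O) e ∧
      ∃ H : HeckeModule L ψ S abar,
        H.d = Module.finrank O (localPart O e (HomMod O S (⊤ : Subgroup (ZMod L)ˣ) O)) ∧
        (IsCongruentLevel S abar L → 0 < H.d) := by
  classical
  obtain ⟨σ, hσ⟩ := exists_injective_complex O
  let : Algebra O ℂ := σ.toAlgebra
  obtain ⟨e, heH, heH₀, b, hb⟩ := exists_freeData (ψ := ψ) S abar hp2 hthree hΔ hψ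
    (K := ψ.ker) (fun u => MonoidHom.mem_ker) hS hEis
  have hneg : (-1 : (ZMod L)ˣ) ∈ ψ.ker := neg_one_mem_ker ψ hp2 hΔ
  have hcard : Nat.card ((ZMod L)ˣ ⧸ ψ.ker) = Nat.card Δ :=
    Nat.card_congr (QuotientGroup.quotientKerEquivOfSurjective ψ hψ).toEquiv
  obtain ⟨ℓ₀, hℓ₀, hℓ₀S, hEis₀⟩ := hEis
  obtain ⟨P, hP, hpar⟩ := exists_parabolicOp (K := ψ.ker) S abar hL hneg hℓ₀ hℓ₀S
    (fun h => hℓ₀S (hS ℓ₀ hℓ₀ h)) hEis₀
  have hodd : Odd (Nat.card ((ZMod L)ˣ ⧸ ψ.ker)) := by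
    obtain ⟨n, hn⟩ := hΔ.exists_card_eq
    rw [hcard, hn]
    exact ((Fact.out : p.Prime).odd_of_ne_two hp2).pow
  refine ⟨e, heH₀,
    { M := Carrier O S ψ e
      d := Module.finrank O (localPart O e (HomMod O S (⊤ : Subgroup (ZMod L)ˣ) O))
      basis := b
      T := opT O S ψ e
      dia := opDia O S ψ e hψ
      basis_bijective := hb
      T_comm := opT_commute
      dia_comm := opT_commute_opDia hψ
      residual := fun ℓ hℓ hℓS a ha => ?_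
      isReduced := ?_
      eigen := exists_eigenData hp2 hthree hL hΔ hψ hS ⟨ℓ₀, hℓ₀, hℓ₀S, hEis₀⟩ heH }, rfl, fun hcong => ?_⟩
  · -- the residual condition
    set r : OpRing O L S := X (Sum.inr ⟨ℓ, hℓ, hℓS⟩) - C a with hr
    have hrm : r ∈ resIdeal S abar L := by
      rw [hr, mem_resIdeal, map_sub, opRes_inr, ← algebraMap_eq, AlgHom.commutes,
        ResidueField.algebraMap_eq, ha, sub_self]
    obtain ⟨n, hn⟩ := heH.exists_pow_smul_mem (O := O) hrm (resIdeal_ne_top S abar)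
    refine ⟨n, fun x => ?_⟩
    have hact : localAct O e (HomMod O S ψ.ker O) r = opT O S ψ e ℓ - a • 1 := by
      rw [hr, map_sub, opT_eq ⟨hℓ, hℓS⟩, ← algebraMap_eq, AlgHom.commutes,
        Algebra.algebraMap_eq_smul_one]
    rw [← hact, ← map_pow]
    have h1 := hn x.1 x.2
    have h2 : maximalIdeal O • localPart O e (HomMod O S ψ.ker O) =
        (maximalIdeal O • (⊤ : Submodule O (Carrier O S ψ e))).map
          (Carrier O S ψ e).subtype := by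
      rw [Submodule.map_smul'', Submodule.map_top, Submodule.range_subtype]
    rw [h2] at h1
    obtain ⟨y, hy, hyx⟩ := h1
    rwa [show localAct O e (HomMod O S ψ.ker O) (r ^ n) x = y from Subtype.ext hyx.symm]
  · -- reducedness
    show IsReduced (opAlg O S ψ e hψ)
    refine ⟨fun y ⟨n, hn⟩ => ?_⟩
    obtain ⟨a, rfl⟩ := toOpAlg_surjective hψ y
    refine Subtype.ext (LinearMap.ext fun x => Subtype.ext ?_)
    refine smul_eq_zero_of_pow_smul hneg hL (hasRoots_of_odd hodd) hS hσ heH hP (fun z => hpar ℂ z) x.2 (n := n) ?_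
    rw [← map_pow] at hn
    exact congrArg Subtype.val (LinearMap.congr_fun (congrArg Subtype.val hn) x)
  · -- nonvanishing
    show 0 < Module.finrank O (localPart O e (HomMod O S (⊤ : Subgroup (ZMod L)ˣ) O))
    have hne := ne_bot_of_isCongruentLevel heH₀ hcong
    have := Submodule.nontrivial_iff_ne_bot.2 hne
    exact Module.finrank_pos

end Fermat.Agent.RT.Level

end
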