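import Fermat.Agent.RT.GammaH.Local

/-!
# The operators of a level on its localised module
-/

set_option autoImplicit false

noncomputable section

namespace Fermat.Agent.RT.Level

open MvPolynomial IsLocalRing
open Fermat.Agent.RT.GammaH
open scoped Classical

variable (O : Type) [CommRing O] [IsDomain O] [IsDiscreteValuationRing O] {L : ℕ} [NeZero L]
  {Δ : Type} [CommGroup Δ] (S : Finset ℕ) (ψ : (ZMod L)ˣ →* Δ) (e : OpRing O L S)

/-- The localised module. -/
abbrev Carrier : Submodule O (HomMod O S ψ.ker O) := localPart O e (HomMod O S ψ.ker O)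

/-- The operator at `ℓ`, zero unless `ℓ` is a prime outside `S`. -/
def opT (ℓ : ℕ) : Module.End O (Carrier O S ψ e) :=
  if h : ℓ.Prime ∧ ℓ ∉ S then localAct O e (HomMod O S ψ.ker O) (X (Sum.inr ⟨ℓ, h⟩)) else 0

variable {O S ψ e}

omit [IsDomain O] [IsDiscreteValuationRing O] [NeZero L] in
theorem opT_eq {ℓ : ℕ} (h : ℓ.Prime ∧ ℓ ∉ S) :
    opT O S ψ e ℓ = localAct O e (HomMod O S ψ.ker O) (X (Sum.inr ⟨ℓ, h⟩)) := dif_pos h

omit [IsDomain O] [IsDiscreteValuationRing O] [NeZero L] in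
theorem opT_commute (ℓ ℓ' : ℕ) :
    opT O S ψ e ℓ * opT O S ψ e ℓ' = opT O S ψ e ℓ' * opT O S ψ e ℓ := by
  unfold opT
  split_ifs <;> simp only [mul_zero, zero_mul, ← map_mul, mul_comm]

omit [NeZero L] [IsDomain O] [IsDiscreteValuationRing O] in
theorem localAct_inl_congr {u v : (ZMod L)ˣ} (h : ψ u = ψ v) :
    localAct O e (HomMod O S ψ.ker O) (X (Sum.inl u)) =
      localAct O e (HomMod O S ψ.ker O) (X (Sum.inl v)) := by
  refine LinearMap.ext fun x => Subtype.ext ?_
  show (X (Sum.inl u) : OpRing O L S) • (x : HomMod O S ψ.ker O) = X (Sum.inl v) • x.1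
  rw [X_inl_smul, X_inl_smul, diamond_congr_ker (ψ := ψ) (fun w => MonoidHom.mem_ker) h]

omit [IsDomain O] [IsDiscreteValuationRing O] [NeZero L] in
theorem localAct_inl_mul (u v : (ZMod L)ˣ) :
    localAct O e (HomMod O S ψ.ker O) (X (Sum.inl (u * v))) =
      localAct O e (HomMod O S ψ.ker O) (X (Sum.inl u)) *
        localAct O e (HomMod O S ψ.ker O) (X (Sum.inl v)) := by
  rw [← map_mul]
  refine LinearMap.ext fun x => Subtype.ext ?_
  show (X (Sum.inl (u * v)) : OpRing O L S) • (x : HomMod O S ψ.ker O) =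
    (X (Sum.inl u) * X (Sum.inl v) : OpRing O L S) • x.1
  rw [mul_smul, X_inl_smul, X_inl_smul, X_inl_smul]
  exact diamond_mul O u v _

omit [IsDomain O] [IsDiscreteValuationRing O] [NeZero L] in
theorem localAct_inl_one :
    localAct O e (HomMod O S ψ.ker O) (X (Sum.inl (1 : (ZMod L)ˣ))) = 1 := by
  refine LinearMap.ext fun x => Subtype.ext ?_
  show (X (Sum.inl (1 : (ZMod L)ˣ)) : OpRing O L S) • (x : HomMod O S ψ.ker O) = x.1
  rw [X_inl_smul]
  exact diamond_of_mem O (one_mem _) _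

variable (O S ψ e) in
/-- The diamond action of `Δ`. -/
def opDia (hψ : Function.Surjective ψ) : Δ →* Module.End O (Carrier O S ψ e) where
  toFun q := localAct O e (HomMod O S ψ.ker O) (X (Sum.inl (psiInv hψ q)))
  map_one' := (localAct_inl_congr (by rw [psiInv, Function.surjInv_eq hψ, map_one])).trans
    localAct_inl_one
  map_mul' a b := (localAct_inl_congr (by simp only [psiInv, Function.surjInv_eq hψ, map_mul])).trans
    (localAct_inl_mul _ _)

omit [NeZero L] [IsDomain O] [IsDiscreteValuationRing O] in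
theorem opDia_apply (hψ : Function.Surjective ψ) (u : (ZMod L)ˣ) :
    opDia O S ψ e hψ (ψ u) = localAct O e (HomMod O S ψ.ker O) (X (Sum.inl u)) :=
  localAct_inl_congr (Function.surjInv_eq hψ _)

omit [NeZero L] [IsDomain O] [IsDiscreteValuationRing O] in
theorem opT_commute_opDia (hψ : Function.Surjective ψ) (ℓ : ℕ) (q : Δ) :
    opT O S ψ e ℓ * opDia O S ψ e hψ q = opDia O S ψ e hψ q * opT O S ψ e ℓ := by
  obtain ⟨u, rfl⟩ := hψ q
  rw [opDia_apply]
  unfold opT
  split_ifs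
  · rw [← map_mul, ← map_mul, mul_comm]
  · rw [mul_zero, zero_mul]

variable (O S ψ e) in
/-- The algebra generated by the operators. -/
abbrev opAlg (hψ : Function.Surjective ψ) : Subalgebra O (Module.End O (Carrier O S ψ e)) :=
  Algebra.adjoin O (Set.range (opDia O S ψ e hψ) ∪ opT O S ψ e '' {ℓ | ℓ.Prime ∧ ℓ ∉ S})

omit [NeZero L] [IsDomain O] [IsDiscreteValuationRing O] in
theorem range_localAct (hψ : Function.Surjective ψ) :
    (localAct O e (HomMod O S ψ.ker O)).range = opAlg O S ψ e hψ := by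
  refine le_antisymm ?_ (Algebra.adjoin_le ?_)
  · rintro _ ⟨x, rfl⟩
    induction x using MvPolynomial.induction_on with
    | C c =>
      rw [← algebraMap_eq]
      show localAct O e _ (algebraMap O _ c) ∈ _
      rw [AlgHom.commutes]
      exact Subalgebra.algebraMap_mem _ c
    | add p q hp hq =>
      show localAct O e _ (p + q) ∈ _
      rw [map_add]
      exact add_mem hp hq
    | mul_X p i hp =>
      show localAct O e _ (p * X i) ∈ _
      rw [map_mul]
      refine mul_mem hp (Algebra.subset_adjoin ?_)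
      rcases i with u | ℓ
      · exact Or.inl ⟨ψ u, opDia_apply hψ u⟩
      · exact Or.inr ⟨ℓ.1, ℓ.2, opT_eq ℓ.2⟩
  · rintro _ (⟨q, rfl⟩ | ⟨ℓ, hℓ, rfl⟩)
    · obtain ⟨u, rfl⟩ := hψ q
      exact ⟨_, (opDia_apply hψ u).symm⟩
    · exact ⟨_, (opT_eq hℓ).symm⟩

variable (O S ψ e) in
/-- The operators, onto the algebra they generate. -/
def toOpAlg (hψ : Function.Surjective ψ) : OpRing O L S →ₐ[O] opAlg O S ψ e hψ :=
  (localAct O e (HomMod O S ψ.ker O)).codRestrict _ fun x =>
    (range_localAct (O := O) (S := S) (ψ := ψ) (e := e) hψ).le ⟨x, rfl⟩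

omit [NeZero L] [IsDomain O] [IsDiscreteValuationRing O] in
theorem toOpAlg_surjective (hψ : Function.Surjective ψ) :
    Function.Surjective (toOpAlg O S ψ e hψ) := by
  rintro ⟨y, hy⟩
  rw [← range_localAct hψ] at hy
  obtain ⟨x, hx⟩ := hy
  exact ⟨x, Subtype.ext hx⟩

omit [NeZero L] [IsDomain O] [IsDiscreteValuationRing O] in
theorem toOpAlg_inl (hψ : Function.Surjective ψ) (u : (ZMod L)ˣ) :
    toOpAlg O S ψ e hψ (X (Sum.inl u)) =
      ⟨opDia O S ψ e hψ (ψ u), Algebra.subset_adjoin (Or.inl ⟨_, rfl⟩)⟩ :=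
  Subtype.ext (opDia_apply hψ u).symm

omit [NeZero L] [IsDomain O] [IsDiscreteValuationRing O] in
theorem toOpAlg_inr (hψ : Function.Surjective ψ) {ℓ : ℕ} (h : ℓ.Prime ∧ ℓ ∉ S) :
    toOpAlg O S ψ e hψ (X (Sum.inr ⟨ℓ, h⟩)) =
      ⟨opT O S ψ e ℓ, Algebra.subset_adjoin (Or.inr ⟨ℓ, h, rfl⟩)⟩ :=
  Subtype.ext (opT_eq h).symm

end Fermat.Agent.RT.Level

end
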